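import Mathlib.RingTheory.PowerSeries.Exp
import Mathlib.RingTheory.PowerSeries.Derivative
import Mathlib.RingTheory.PowerSeries.Inverse

/-!
# The exponential of `- m ∑ c ^ n T ^ n / n`

It is `(1 - c T) ^ m`.
-/

set_option autoImplicit false
set_option linter.style.haveILetI false

noncomputable section

open PowerSeries

namespace FA.FunctionFieldBSD

/-- **The exponential.** -/
theorem exp_subst_eq_pow (c : ℚ) (m : ℕ) {S : ℚ⟦X⟧} (h0 : constantCoeff S = 0)
    (hS : d⁄dX ℚ S = mk fun n => -(m : ℚ) * c ^ (n + 1)) :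
    (exp ℚ).subst S = (1 - C c * X) ^ m := by
  have hs : HasSubst S := HasSubst.of_constantCoeff_zero' h0
  set g := (exp ℚ).subst S with hg
  have hg' : d⁄dX ℚ g = g * d⁄dX ℚ S := by rw [hg, derivative_subst hs, derivative_exp]
  have hg0 : constantCoeff g = 1 := by
    have h1 : constantCoeff ((exp ℚ - 1).subst S) = 0 :=
      constantCoeff_subst_eq_zero h0 _ (by simp)
    rw [subst_sub hs, map_sub] at h1
    rw [show (1 : ℚ⟦X⟧).subst S = 1 by rw [← coe_substAlgHom hs, map_one], ← hg, map_one] at h1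
    linarith
  set P : ℚ⟦X⟧ := 1 - C c * X with hP
  have hPS : P * d⁄dX ℚ S = -(C (m : ℚ) * C c) := by
    have e : P * mk (fun n => c ^ (n + 1)) = C c := by
      rw [hP]
      ext n
      rcases n with _ | n
      · simp
      · simp [sub_mul, mul_assoc, pow_succ' c (n + 1)]
    rw [hS, show mk (fun n => -(m : ℚ) * c ^ (n + 1)) = -C (m : ℚ) * mk (fun n => c ^ (n + 1)) by
      ext n; rw [← map_neg, coeff_C_mul, coeff_mk, coeff_mk], mul_left_comm, e, neg_mul]
  have hD : P * d⁄dX ℚ (P ^ m) = P ^ m * -(C (m : ℚ) * C c) := by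
    have hd : d⁄dX ℚ P = -C c := by simp [hP]
    rw [derivative_pow, hd, map_natCast]
    rcases m with _ | m
    · simp
    · rw [Nat.add_sub_cancel, pow_succ]; ring
  have hP0 : constantCoeff P ≠ 0 := by simp [hP]
  have hne : P ≠ 0 := fun e => hP0 (by rw [e, map_zero])
  have hPm : constantCoeff (P ^ m) ≠ 0 := by rw [map_pow]; exact pow_ne_zero _ hP0
  have h : g * (P ^ m)⁻¹ = 1 := by
    refine derivative.ext ?_ (by simp [hg0, hP])
    rw [derivative_one, Derivation.leibniz, derivative_inv', hg', smul_eq_mul, smul_eq_mul]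
    refine mul_left_cancel₀ (mul_ne_zero hne (pow_ne_zero m hne)) ?_
    have hi := PowerSeries.mul_inv_cancel (P ^ m) hPm
    rw [mul_zero]
    linear_combination (g * (P ^ m)⁻¹ * P ^ m) * hPS - (g * (P ^ m)⁻¹) * hD -
      (P * g * (P ^ m)⁻¹ * d⁄dX ℚ (P ^ m)) * hi
  have hi := PowerSeries.mul_inv_cancel (P ^ m) hPm
  linear_combination P ^ m * h - g * hi

end FA.FunctionFieldBSD
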