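import Fermat.Agent.FermatCount.Basic
import Mathlib.NumberTheory.LegendreSymbol.QuadraticChar.Basic
import Mathlib.Algebra.CharP.Frobenius
import Mathlib.FieldTheory.Perfect

/-!
# The sum of the traces of the fibres of `y² = x (x + 1) (x + u ^ d)`

Over a finite field with `d = p ^ f + 1` dividing the order of the unit group the double sum of the
quadratic character is the sum of the squares of the Jacobi sums with the characters killed by
`d`. These are real, as `x ↦ x ^ (p ^ f)` inverts the characters, so their squares are the order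
of the field.
-/

set_option autoImplicit false
set_option linter.unusedSectionVars false
set_option linter.style.haveILetI false

noncomputable section

open Finset
open FA.FermatCount (killed mem_killed one_mem_killed card_killed roots mem_roots card_roots_eq_sum)

namespace FA.FunctionFieldBSD

variable {k : Type*} [Field k] [Fintype k] [DecidableEq k]

/-- The quadratic character with complex values. -/
def quadC (k : Type*) [Field k] [Fintype k] [DecidableEq k] : MulChar k ℂ :=
  (quadraticChar k).ringHomComp (Int.castRingHom ℂ)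

theorem quadC_apply (x : k) : quadC k x = ((quadraticChar k x : ℤ) : ℂ) := rfl

variable (hk : ringChar k ≠ 2)
include hk

theorem quadC_ne_one : quadC k ≠ 1 :=
  (MulChar.ringHomComp_ne_one_iff Int.cast_injective).2 (quadraticChar_ne_one hk)

theorem quadC_sq : quadC k ^ 2 = 1 := ((quadraticChar_isQuadratic k).comp _).sq_eq_one

theorem quadC_inv : (quadC k)⁻¹ = quadC k := ((quadraticChar_isQuadratic k).comp _).inv

theorem quadC_mul_self (x : k) : quadC k x * quadC k x = (1 : MulChar k ℂ) x := by
  rw [← MulChar.mul_apply, ← sq, quadC_sq hk]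

/-- `∑ χ (x + c) = 0`. -/
theorem sum_quadC_add (c : k) : ∑ t : k, quadC k (c + t) = 0 := by
  rw [← Equiv.sum_comp (Equiv.addLeft (-c))]
  simpa using MulChar.sum_eq_zero_of_ne_one (quadC_ne_one hk)

/-- The inner sum for a nontrivial character. -/
theorem sum_quadC_mul (ψ : MulChar k ℂ) {x : k} (hx : x ≠ 0) :
    ∑ t : k, quadC k (x + t) * ψ t = quadC k x * ψ (-x) * jacobiSum ψ (quadC k) := by
  rw [← Equiv.sum_comp (Equiv.mulLeft₀ (-x) (neg_ne_zero.2 hx)), jacobiSum, Finset.mul_sum]
  refine Finset.sum_congr rfl fun s _ => ?_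
  show quadC k (x + -x * s) * ψ (-x * s) = _
  rw [map_mul ψ (-x) s, show x + -x * s = x * (1 - s) by ring,
    map_mul (quadC k) x (1 - s)]
  ring

/-- The double sum twisted by one character. -/
def twistSum (ψ : MulChar k ℂ) : ℂ :=
  ∑ t : k, ∑ x : k, quadC k x * quadC k (x + 1) * quadC k (x + t) * ψ t

theorem twistSum_eq (ψ : MulChar k ℂ) :
    twistSum ψ = jacobiSum ψ (quadC k) ^ 2 := by
  rw [twistSum, Finset.sum_comm]
  have h : ∀ x : k, ∑ t : k, quadC k x * quadC k (x + 1) * quadC k (x + t) * ψ t =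
      jacobiSum ψ (quadC k) * (ψ (-x) * quadC k (x + 1)) := fun x => by
    rw [show ∑ t : k, quadC k x * quadC k (x + 1) * quadC k (x + t) * ψ t =
      quadC k x * quadC k (x + 1) * ∑ t : k, quadC k (x + t) * ψ t by
        rw [Finset.mul_sum]; exact Finset.sum_congr rfl fun t _ => by ring]
    by_cases hx : x = 0
    · simp [hx, MulChar.map_zero]
    rw [sum_quadC_mul hk ψ hx, show ∀ A B C D : ℂ, A * B * (A * C * D) = D * ((A * A) * (C * B))
      from fun A B C D => by ring, quadC_mul_self hk, MulChar.one_apply (isUnit_iff_ne_zero.2 hx),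
      one_mul]
  rw [Finset.sum_congr rfl fun x _ => h x, ← Finset.mul_sum, sq]
  congr 1
  rw [jacobiSum, ← Equiv.sum_comp (Equiv.neg k)]
  refine Finset.sum_congr rfl fun s _ => ?_
  simp [add_comm, sub_eq_add_neg]

variable {p f : ℕ} [hp : Fact p.Prime] [CharP k p]

/-- **The Jacobi sums of such characters are real and square to the order of the field.** -/
theorem jacobiSum_sq (hp2 : p ≠ 2) {ψ : MulChar k ℂ} (hψ : ψ ^ (p ^ f + 1) = 1) (h1 : ψ ≠ 1)
    (hc : ψ ≠ quadC k) : jacobiSum ψ (quadC k) ^ 2 = Fintype.card k := by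
  have hm : p ^ f ≠ 0 := pow_ne_zero _ hp.out.ne_zero
  have hinv : ψ ^ (p ^ f) = ψ⁻¹ := eq_inv_of_mul_eq_one_left (by rw [← pow_succ]; exact hψ)
  have hquad : quadC k ^ (p ^ f) = quadC k := by
    obtain ⟨j, hj⟩ := (hp.out.odd_of_ne_two hp2).pow (n := f)
    rw [hj, pow_succ, pow_mul, quadC_sq hk, one_pow, one_mul]
  have hreal : jacobiSum ψ⁻¹ (quadC k) = jacobiSum ψ (quadC k) := by
    simp only [jacobiSum]
    conv_rhs => rw [← Equiv.sum_comp (iterateFrobeniusEquiv k p f).toEquiv]
    refine Finset.sum_congr rfl fun x _ => ?_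
    have e : (iterateFrobeniusEquiv k p f).toEquiv x = x ^ p ^ f := iterateFrobeniusEquiv_def k p f x
    rw [e, show 1 - x ^ p ^ f = (1 - x) ^ p ^ f by rw [sub_pow_char_pow, one_pow], map_pow, map_pow,
      ← MulChar.pow_apply' _ hm, ← MulChar.pow_apply' _ hm, hinv, hquad]
  have hne : ψ * quadC k ≠ 1 := fun e => hc (by
    rw [eq_inv_of_mul_eq_one_left e, quadC_inv hk])
  have hchar : ringChar ℂ ≠ ringChar k := by
    rw [ringChar.eq_zero]
    exact (CharP.ringChar_ne_zero_of_finite k).symm
  have h := jacobiSum_mul_jacobiSum_inv hchar h1 (quadC_ne_one hk) hne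
  rwa [quadC_inv hk, hreal, ← sq] at h

/-- The affine sum. -/
def affineSum (k : Type*) [Field k] [Fintype k] [DecidableEq k] (d : ℕ) : ℂ :=
  ∑ u : k, ∑ x : k, quadC k x * quadC k (x + 1) * quadC k (x + u ^ d)

theorem affineSum_eq_twistSum {d : ℕ} (hd : 0 < d) :
    affineSum k d = (∑ x : k, quadC k x * quadC k (x + 1) * quadC k (x + 0)) +
      ∑ ψ ∈ killed k d, twistSum ψ := by
  classical
  let G : k → ℂ := fun t => ∑ x : k, quadC k x * quadC k (x + 1) * quadC k (x + t)
  show ∑ u : k, G (u ^ d) = G 0 + _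
  rw [← Finset.sum_fiberwise Finset.univ (fun u : k => u ^ d) fun u => G (u ^ d)]
  have h : ∀ t : k, ∑ u ∈ Finset.univ.filter (fun u : k => u ^ d = t), G (u ^ d) =
      (if t = 0 then G 0 else 0) + ∑ ψ ∈ killed k d, ψ t * G t := fun t => by
    have hs : ∑ u ∈ Finset.univ.filter (fun u : k => u ^ d = t), G (u ^ d) =
        (#(roots k d t) : ℂ) * G t := by
      rw [Finset.sum_congr rfl fun u hu => by rw [(Finset.mem_filter.1 hu).2],
        Finset.sum_const, nsmul_eq_mul]
      rfl
    rw [hs]
    by_cases ht : t = 0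
    · subst ht
      rw [if_pos rfl, Finset.sum_eq_zero fun ψ _ => by rw [MulChar.map_zero, zero_mul], add_zero]
      rw [show roots k d (0 : k) = {0} from Finset.ext fun x => by simp [mem_roots, hd.ne'],
        Finset.card_singleton, Nat.cast_one, one_mul]
    · rw [if_neg ht, zero_add, card_roots_eq_sum hd ht, Finset.sum_mul]
  rw [Finset.sum_congr rfl fun t _ => h t, Finset.sum_add_distrib,
    Finset.sum_ite_eq' Finset.univ (0 : k), if_pos (Finset.mem_univ _), Finset.sum_comm]
  refine congrArg _ (Finset.sum_congr rfl fun ψ _ => ?_)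
  simp only [twistSum, G, Finset.mul_sum]
  exact Finset.sum_congr rfl fun t _ => Finset.sum_congr rfl fun x _ => by ring

theorem fibre_zero : ∑ x : k, quadC k x * quadC k (x + 1) * quadC k (x + 0) = -1 := by
  have h : ∀ x : k, quadC k x * quadC k (x + 1) * quadC k (x + 0) =
      quadC k (1 + x) - if x = 0 then (1 : ℂ) else 0 := fun x => by
    rw [add_zero, mul_right_comm, quadC_mul_self hk, add_comm x 1]
    by_cases hx : x = 0
    · simp [hx, MulChar.map_zero]
    · simp [hx, MulChar.one_apply (isUnit_iff_ne_zero.2 hx)]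
  rw [Finset.sum_congr rfl fun x _ => h x, Finset.sum_sub_distrib, sum_quadC_add hk,
    Finset.sum_ite_eq' Finset.univ (0 : k), if_pos (Finset.mem_univ _), zero_sub]

/-- **The affine sum is `(d - 2) q + 1`.** -/
theorem affineSum_eq (hp2 : p ≠ 2) (hdvd : p ^ f + 1 ∣ Fintype.card k - 1) :
    affineSum k (p ^ f + 1) = ((p ^ f - 1 : ℕ) : ℂ) * Fintype.card k + 1 := by
  classical
  have hq : quadC k ∈ killed k (p ^ f + 1) := by
    obtain ⟨j, hj⟩ := (hp.out.odd_of_ne_two hp2).pow (n := f) |>.add_one
    rw [mem_killed, hj, ← two_mul, pow_mul, quadC_sq hk, one_pow]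
  have hne : (1 : MulChar k ℂ) ≠ quadC k := (quadC_ne_one hk).symm
  rw [affineSum_eq_twistSum hk (Nat.succ_pos _), fibre_zero hk,
    ← Finset.sum_sdiff (show {1, quadC k} ⊆ killed k (p ^ f + 1) by
      simp [Finset.insert_subset_iff, one_mem_killed, hq]), Finset.sum_pair hne, twistSum_eq hk,
    twistSum_eq hk, jacobiSum_one_nontrivial (quadC_ne_one hk), neg_sq, one_pow]
  have hJ : jacobiSum (quadC k) (quadC k) ^ 2 = 1 := by
    conv_lhs => arg 1; arg 2; rw [← quadC_inv hk]
    rw [jacobiSum_nontrivial_inv (quadC_ne_one hk), neg_sq, sq, quadC_mul_self hk,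
      MulChar.one_apply (isUnit_iff_ne_zero.2 (neg_ne_zero.2 one_ne_zero))]
  have hrest : ∀ ψ ∈ killed k (p ^ f + 1) \ {1, quadC k}, twistSum ψ = (Fintype.card k : ℂ) := by
    intro ψ hψ
    simp only [Finset.mem_sdiff, Finset.mem_insert, Finset.mem_singleton, not_or] at hψ
    rw [twistSum_eq hk, jacobiSum_sq hk hp2 (mem_killed.1 hψ.1) hψ.2.1 hψ.2.2]
  have hcard : #(killed k (p ^ f + 1) \ {1, quadC k}) = p ^ f - 1 := by
    rw [Finset.card_sdiff_of_subset (by simp [Finset.insert_subset_iff, one_mem_killed, hq]),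
      card_killed, Nat.gcd_eq_left hdvd, Finset.card_pair hne]
    omega
  rw [hJ, Finset.sum_congr rfl hrest, Finset.sum_const, nsmul_eq_mul, hcard]
  ring

end FA.FunctionFieldBSD
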